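import Mathlib.AlgebraicGeometry.EllipticCurve.Affine.AddSubMap
import Fermat.Agent.S05.XId

/-!
# `addSubMap` computes `sym2x (P + Q) (P - Q)` from `sym2x P Q`

This proves the statement left as a TODO in Mathlib's `AddSubMap.lean`: for all points `P`, `Q`
of an elliptic curve over a field (including `0`, `P = Q`, `P = -Q`), the vector
`addSubMap (sym2x P Q)` is a nonzero multiple of `sym2x (P + Q) (P - Q)`.
-/

set_option autoImplicit false

namespace Fermat.Agent.S52.H733

open WeierstrassCurve WeierstrassCurve.Affine MvPolynomial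
open Fermat.Agent.S05.XId

variable {F : Type*} [Field F]

/-- Evaluation of `addSubMap` on a coordinate vector. -/
noncomputable def asEval (W : WeierstrassCurve F) (v : Fin 3 → F) : Fin 3 → F :=
  fun i => (addSubMap W i).eval v

lemma asEval_vec (W : WeierstrassCurve F) (s t u : F) :
    asEval W ![s, t, u] =
      ![s ^ 2 - W.b₄ * s * u - W.b₆ * t * u - W.b₈ * u ^ 2,
        2 * t * s + W.b₂ * s * u + W.b₄ * t * u + W.b₆ * u ^ 2,
        t ^ 2 - 4 * s * u] := by
  funext i
  fin_cases i <;> simp [asEval, addSubMap]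

lemma asEval_ne_zero (W : WeierstrassCurve F) [W.IsElliptic] {v : Fin 3 → F} (hv : v ≠ 0) :
    asEval W v ≠ 0 :=
  addSubMap_ne_zero W hv

lemma asEval_dbl (W : WeierstrassCurve F) (x : F) :
    asEval W ![x * x, x + x, 1] = ![dblNum W x, dblDen W x, 0] := by
  rw [asEval_vec]
  simp only [dblNum, dblDen]
  congr 1
  · ring
  · congr 1
    · ring
    · congr 1
      ring

variable [DecidableEq F] {W : Affine F}

/-- doubling case -/
lemma asEval_sym2x_self [W.IsElliptic] {x y : F} (h : W.Nonsingular x y) :
    ∃ c : F, c ≠ 0 ∧ asEval W ![x * x, x + x, 1] =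
      c • (Point.some x y h + Point.some x y h).sym2x 0 := by
  by_cases hy : y = W.negY x y
  · -- 2-torsion
    have h0 : Point.some x y h + Point.some x y h = 0 := Point.add_of_Y_eq rfl hy
    have hne : asEval W ![x * x, x + x, 1] ≠ 0 := asEval_ne_zero W (by
      intro hv
      have := congrFun hv 2
      simp at this)
    rw [asEval_dbl, dblDen_eq_zero_of_Y_eq h.1 hy] at hne ⊢
    refine ⟨dblNum W x, ?_, ?_⟩
    · rintro hc
      apply hne
      rw [hc]
      funext i
      fin_cases i <;> simp
    · rw [h0, Point.sym2x_zero_zero]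
      funext i
      fin_cases i <;> simp
  · obtain ⟨x', y', h', hadd, hx', hd⟩ := add_self_some h hy
    refine ⟨dblDen W x, hd, ?_⟩
    rw [asEval_dbl, hadd, Point.sym2x_some_zero]
    funext i
    fin_cases i
    · simp [← hx', mul_comm]
    · simp
    · simp

/-- **`addSubMap` does what it claims**: for all points `P`, `Q` on an elliptic curve over a field,
`addSubMap (sym2x P Q)` is a nonzero multiple of `sym2x (P + Q) (P - Q)`. -/
theorem asEval_sym2x [W.IsElliptic] (P Q : W.Point) :
    ∃ c : F, c ≠ 0 ∧ asEval W (P.sym2x Q) = c • (P + Q).sym2x (P - Q) := by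
  rcases P with _ | ⟨x₁, y₁, h₁⟩
  · rcases Q with _ | ⟨x₂, y₂, h₂⟩
    · refine ⟨1, one_ne_zero, ?_⟩
      have : (Point.zero : W.Point) = 0 := rfl
      rw [this, add_zero, sub_zero, Point.sym2x_zero_zero, asEval_vec]
      funext i
      fin_cases i <;> simp
    · refine ⟨1, one_ne_zero, ?_⟩
      have : (Point.zero : W.Point) = 0 := rfl
      rw [this, zero_add, zero_sub, Point.sym2x_neg_right, Point.sym2x_zero_some,
        Point.sym2x_some_some, asEval_vec]
      funext i
      fin_cases i
      · simp; ring
      · simp; ring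
      · simp
  · rcases Q with _ | ⟨x₂, y₂, h₂⟩
    · refine ⟨1, one_ne_zero, ?_⟩
      have : (Point.zero : W.Point) = 0 := rfl
      rw [this, add_zero, sub_zero, Point.sym2x_some_zero,
        Point.sym2x_some_some, asEval_vec]
      funext i
      fin_cases i
      · simp; ring
      · simp; ring
      · simp
    · by_cases hx : x₁ = x₂
      · subst hx
        have hPQ : Point.some x₁ y₁ h₁ = Point.some x₁ y₂ h₂ ∨
            Point.some x₁ y₁ h₁ = -Point.some x₁ y₂ h₂ :=
          Point.eq_or_eq_neg_of_xRep_eq_xRep (by simp)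
        rw [Point.sym2x_some_some]
        rcases hPQ with hPQ | hPQ
        · rw [hPQ, sub_self]
          exact asEval_sym2x_self h₂
        · obtain ⟨c, hc, hcv⟩ := asEval_sym2x_self h₁
          refine ⟨c, hc, ?_⟩
          have h1 : Point.some x₁ y₁ h₁ + Point.some x₁ y₂ h₂ = 0 := by
            rw [hPQ, neg_add_cancel]
          have h2 : Point.some x₁ y₁ h₁ - Point.some x₁ y₂ h₂ =
              Point.some x₁ y₁ h₁ + Point.some x₁ y₁ h₁ := by
            have : Point.some x₁ y₂ h₂ = -Point.some x₁ y₁ h₁ := by
              rw [hPQ, neg_neg]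
            rw [this, sub_neg_eq_add]
          rw [h1, h2, Point.sym2x_comm, hcv]
      · obtain ⟨x₃, y₃, x₄, y₄, h₃, h₄, hadd, hsub, hsum, hprod⟩ := add_sub_some h₁ h₂ hx
        refine ⟨(x₁ - x₂) ^ 2, pow_ne_zero 2 (sub_ne_zero.mpr hx), ?_⟩
        rw [hadd, hsub, Point.sym2x_some_some, Point.sym2x_some_some, asEval_vec]
        funext i
        fin_cases i
        · simp only [Fin.zero_eta, Fin.isValue, Matrix.cons_val_zero, Pi.smul_apply,
            smul_eq_mul]
          rw [hprod, prodNum]; ring
        · simp only [Fin.mk_one, Fin.isValue, Matrix.cons_val_one, Matrix.cons_val_zero,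
            Pi.smul_apply, smul_eq_mul]
          rw [hsum, sumNum]; ring
        · simp; ring

end Fermat.Agent.S52.H733
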