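import Fermat.Agent.S52.H733.PDeg

/-!
# `addSubMap` on vectors of polynomials: primitivity and exact degree doubling

For an elliptic curve `W` over a field `k` and a primitive vector `w : Fin 3 → k[X]`, the vector
`asPoly W w = addSubMap W (w)` is again primitive, and its maximal degree is exactly twice the
maximal degree of `w`.
-/

set_option autoImplicit false

namespace Fermat.Agent.S52.H733

open Polynomial WeierstrassCurve

lemma map_addSubMap {R S : Type*} [CommRing R] [CommRing S] (W : WeierstrassCurve R)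
    (f : R →+* S) (i : Fin 3) :
    addSubMap (W.map f) i = MvPolynomial.map f (addSubMap W i) := by
  fin_cases i <;> simp [addSubMap, map_ofNat]

set_option maxHeartbeats 1000000 in
lemma map_addSubMapCoeff {R S : Type*} [CommRing R] [CommRing S] (W : WeierstrassCurve R)
    (f : R →+* S) (ij : Fin 3 × Fin 3) :
    addSubMapCoeff (W.map f) ij = MvPolynomial.map f (addSubMapCoeff W ij) := by
  fin_cases ij <;> simp [addSubMapCoeff, map_ofNat]

variable {k : Type*} [Field k] (W : WeierstrassCurve k)

/-- `addSubMap W` evaluated at a vector of polynomials. -/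
noncomputable def asPoly (w : Fin 3 → k[X]) : Fin 3 → k[X] :=
  fun i => MvPolynomial.aeval w (addSubMap W i)

/-- The coefficients (including the factor `Δ⁻¹`) expressing the fourth powers of the entries
of `w` as combinations of the entries of `asPoly W w`. -/
noncomputable def asCoeff [W.IsElliptic] (w : Fin 3 → k[X]) (i j : Fin 3) : k[X] :=
  MvPolynomial.aeval w (MvPolynomial.C (↑W.Δ'⁻¹ : k) * addSubMapCoeff W (i, j))

lemma asPoly_eq_eval_map (w : Fin 3 → k[X]) (i : Fin 3) :
    asPoly W w i = (addSubMap (W.map (C : k →+* k[X])) i).eval w := by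
  rw [map_addSubMap, MvPolynomial.eval_map, asPoly, MvPolynomial.aeval_def]
  rfl

lemma asCoeff_eq_eval_map [W.IsElliptic] (w : Fin 3 → k[X]) (i j : Fin 3) :
    asCoeff W w i j =
      (MvPolynomial.C (↑(W.map (C : k →+* k[X])).Δ'⁻¹ : k[X]) *
        addSubMapCoeff (W.map (C : k →+* k[X])) (i, j)).eval w := by
  rw [map_addSubMapCoeff, asCoeff, map_mul, map_mul, MvPolynomial.eval_map, MvPolynomial.aeval_C,
    MvPolynomial.eval_C, MvPolynomial.aeval_def]
  congr 1
  simp [WeierstrassCurve.map_Δ']

lemma asPoly_condition [W.IsElliptic] (w : Fin 3 → k[X]) (i : Fin 3) :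
    ∑ j, asCoeff W w i j * asPoly W w j = w i ^ 4 := by
  simp_rw [asPoly_eq_eval_map, asCoeff_eq_eval_map]
  exact addSubMapCoeff_condition (W.map (C : k →+* k[X])) w i

/-- `addSubMap` preserves primitivity. -/
lemma isPrim_asPoly [W.IsElliptic] {w : Fin 3 → k[X]} (hw : IsPrim w) : IsPrim (asPoly W w) := by
  have h4 := Ideal.span_pow_eq_top (Set.range w) hw 4
  rw [IsPrim, eq_top_iff, ← h4, Ideal.span_le]
  rintro _ ⟨_, ⟨i, rfl⟩, rfl⟩
  show w i ^ 4 ∈ Ideal.span (Set.range (asPoly W w))
  rw [← asPoly_condition W w i]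
  refine Ideal.sum_mem _ fun j _ => ?_
  exact Ideal.mul_mem_left _ _ (Ideal.subset_span ⟨j, rfl⟩)

lemma natDegree_asPoly_le (w : Fin 3 → k[X]) (i : Fin 3) :
    (asPoly W w i).natDegree ≤ 2 * maxDeg w :=
  natDegree_aeval_le (isHomogeneous_addSubMap W i) w _ (natDegree_le_maxDeg w)

lemma natDegree_asCoeff_le [W.IsElliptic] (w : Fin 3 → k[X]) (i j : Fin 3) :
    (asCoeff W w i j).natDegree ≤ 2 * maxDeg w := by
  refine natDegree_aeval_le (m := 2) ?_ w _ (natDegree_le_maxDeg w)
  have := (MvPolynomial.isHomogeneous_C (Fin 3) (↑W.Δ'⁻¹ : k)).mul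
    (isHomogeneous_addSubMapCoeff W (i, j))
  simpa using this

/-- `addSubMap` exactly doubles the maximal degree. -/
lemma maxDeg_asPoly [W.IsElliptic] (w : Fin 3 → k[X]) :
    maxDeg (asPoly W w) = 2 * maxDeg w := by
  apply le_antisymm
  · rw [maxDeg_le_iff]
    exact natDegree_asPoly_le W w
  · obtain ⟨i, hi⟩ := exists_natDegree_eq_maxDeg w
    have h4 : (w i ^ 4).natDegree = 4 * maxDeg w := by
      rw [natDegree_pow, hi]
    have hle : (∑ j, asCoeff W w i j * asPoly W w j).natDegree ≤
        2 * maxDeg w + maxDeg (asPoly W w) := by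
      refine Polynomial.natDegree_sum_le_of_forall_le _ _ fun j _ => ?_
      exact natDegree_mul_le.trans
        (add_le_add (natDegree_asCoeff_le W w i j) (natDegree_le_maxDeg _ j))
    rw [asPoly_condition, h4] at hle
    omega

end Fermat.Agent.S52.H733
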