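import Mathlib

/-!
# Primitive vectors of polynomials and their maximal degree

Elementary "exact height" machinery over `k[X]`:
* `maxDeg w` : the maximum of the `natDegree`s of a vector of polynomials;
* `IsPrim w` : the entries generate the unit ideal;
* proportional primitive vectors have the same `maxDeg`;
* Gauss lemma for the symmetric square map `((a₁ : b₁), (a₂ : b₂)) ↦ (a₁a₂ : a₁b₂ + a₂b₁ : b₁b₂)`;
* degree bound for evaluating a homogeneous polynomial with constant coefficients.
-/

set_option autoImplicit false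

namespace Fermat.Agent.S52.H733

open Polynomial

variable {k : Type*} [Field k]

/-- Maximal degree of a vector of polynomials. -/
noncomputable def maxDeg {n : ℕ} (w : Fin n → k[X]) : ℕ :=
  Finset.univ.sup fun i => (w i).natDegree

/-- A vector of polynomials is primitive if its entries generate the unit ideal. -/
def IsPrim {n : ℕ} (w : Fin n → k[X]) : Prop :=
  Ideal.span (Set.range w) = ⊤

lemma natDegree_le_maxDeg {n : ℕ} (w : Fin n → k[X]) (i : Fin n) :
    (w i).natDegree ≤ maxDeg w :=
  Finset.le_sup (f := fun i => (w i).natDegree) (Finset.mem_univ i)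

lemma maxDeg_le_iff {n : ℕ} (w : Fin n → k[X]) (d : ℕ) :
    maxDeg w ≤ d ↔ ∀ i, (w i).natDegree ≤ d := by
  simp [maxDeg, Finset.sup_le_iff]

lemma exists_natDegree_eq_maxDeg {n : ℕ} [NeZero n] (w : Fin n → k[X]) :
    ∃ i, (w i).natDegree = maxDeg w := by
  obtain ⟨i, -, hi⟩ := Finset.exists_mem_eq_sup (Finset.univ : Finset (Fin n))
    ⟨0, Finset.mem_univ _⟩ (fun i => (w i).natDegree)
  exact ⟨i, hi.symm⟩

lemma IsPrim.exists_bezout {n : ℕ} {w : Fin n → k[X]} (h : IsPrim w) :
    ∃ c : Fin n → k[X], ∑ i, c i * w i = 1 := by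
  have : (1 : k[X]) ∈ Ideal.span (Set.range w) := by rw [h]; trivial
  exact Ideal.mem_span_range_iff_exists_fun.mp this

lemma isPrim_of_bezout {n : ℕ} {w : Fin n → k[X]} (c : Fin n → k[X])
    (h : ∑ i, c i * w i = 1) : IsPrim w := by
  rw [IsPrim, Ideal.eq_top_iff_one]
  exact Ideal.mem_span_range_iff_exists_fun.mpr ⟨c, h⟩

lemma IsPrim.ne_zero {n : ℕ} {w : Fin n → k[X]} (h : IsPrim w) : w ≠ 0 := by
  rintro rfl
  obtain ⟨c, hc⟩ := h.exists_bezout
  simp at hc

/-- Two primitive vectors which are proportional (all `2 × 2` minors vanish) have entrywise the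
same degree. -/
lemma natDegree_eq_of_prop {n : ℕ} {p p' : Fin n → k[X]} (hp : IsPrim p) (hp' : IsPrim p')
    (h : ∀ i j, p i * p' j = p j * p' i) (j : Fin n) :
    (p' j).natDegree = (p j).natDegree := by
  obtain ⟨c, hc⟩ := hp.exists_bezout
  obtain ⟨c', hc'⟩ := hp'.exists_bezout
  set u : k[X] := ∑ i, c i * p' i with hu
  set u' : k[X] := ∑ i, c' i * p i with hu'
  have h1 : ∀ j, u * p j = p' j := by
    intro j
    rw [hu, Finset.sum_mul]
    have : ∀ i, c i * p' i * p j = c i * p i * p' j := by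
      intro i
      have := h i j
      linear_combination (-(c i)) * this
    simp_rw [this]
    rw [← Finset.sum_mul, hc, one_mul]
  have h2 : ∀ j, u' * p' j = p j := by
    intro j
    rw [hu', Finset.sum_mul]
    have : ∀ i, c' i * p i * p' j = c' i * p' i * p j := by
      intro i
      have := h i j
      linear_combination (c' i) * this
    simp_rw [this]
    rw [← Finset.sum_mul, hc', one_mul]
  have huu : u * u' = 1 := by
    obtain ⟨i, hi⟩ : ∃ i, p' i ≠ 0 := by
      by_contra hcon
      push Not at hcon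
      exact hp'.ne_zero (funext hcon)
    have : u * u' * p' i = 1 * p' i := by
      rw [mul_assoc, h2, h1, one_mul]
    exact mul_right_cancel₀ hi this
  have hunit : IsUnit u := IsUnit.of_mul_eq_one _ huu
  rw [← h1 j]
  obtain ⟨a, ha, hau⟩ : ∃ a : k, a ≠ 0 ∧ C a = u := by
    rw [Polynomial.isUnit_iff] at hunit
    obtain ⟨a, ha, hau⟩ := hunit
    exact ⟨a, ha.ne_zero, hau⟩
  rw [← hau, Polynomial.natDegree_C_mul ha]

lemma maxDeg_eq_of_prop {n : ℕ} {p p' : Fin n → k[X]} (hp : IsPrim p) (hp' : IsPrim p')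
    (h : ∀ i j, p i * p' j = p j * p' i) : maxDeg p' = maxDeg p := by
  simp only [maxDeg]
  congr 1
  funext j
  exact natDegree_eq_of_prop hp hp' h j

/-- The symmetric square of two points of `ℙ¹`. -/
noncomputable def symSq (a₁ b₁ a₂ b₂ : k[X]) : Fin 3 → k[X] :=
  ![a₁ * a₂, a₁ * b₂ + a₂ * b₁, b₁ * b₂]

lemma isPrim_pair_iff {a b : k[X]} : IsPrim ![a, b] ↔ ∃ c d : k[X], c * a + d * b = 1 := by
  constructor
  · intro h
    obtain ⟨c, hc⟩ := h.exists_bezout
    exact ⟨c 0, c 1, by simpa [Fin.sum_univ_two] using hc⟩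
  · rintro ⟨c, d, h⟩
    exact isPrim_of_bezout ![c, d] (by simpa [Fin.sum_univ_two] using h)

/-- Gauss lemma, primitivity part. -/
lemma isPrim_symSq {a₁ b₁ a₂ b₂ : k[X]} (h₁ : IsPrim ![a₁, b₁]) (h₂ : IsPrim ![a₂, b₂]) :
    IsPrim (symSq a₁ b₁ a₂ b₂) := by
  obtain ⟨c₁, d₁, e₁⟩ := isPrim_pair_iff.mp h₁
  obtain ⟨c₂, d₂, e₂⟩ := isPrim_pair_iff.mp h₂
  set A := c₁ ^ 3 * a₁ + 3 * c₁ ^ 2 * d₁ * b₁ with hA
  set B := 3 * c₁ * d₁ ^ 2 * a₁ + d₁ ^ 3 * b₁ with hB
  refine isPrim_of_bezout ![A * (c₂ * a₁ - d₂ * b₁), A * d₂ * a₁ + B * c₂ * b₁,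
    B * (d₂ * b₁ - c₂ * a₁)] ?_
  simp only [symSq, Fin.sum_univ_three, Matrix.cons_val_zero, Matrix.cons_val_one,
    Matrix.cons_val_two, Matrix.head_cons, Matrix.tail_cons]
  simp only [hA, hB]
  linear_combination (c₁ * a₁ + d₁ * b₁) ^ 3 * e₂ +
    ((c₁ * a₁ + d₁ * b₁) ^ 2 + (c₁ * a₁ + d₁ * b₁) + 1) * e₁

lemma natDegree_pair_le {a b : k[X]} : a.natDegree ≤ maxDeg ![a, b] ∧
    b.natDegree ≤ maxDeg ![a, b] :=
  ⟨natDegree_le_maxDeg ![a, b] 0, natDegree_le_maxDeg ![a, b] 1⟩

/-- Gauss lemma, degree part: the maximal degree of the symmetric square is the sum of the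
maximal degrees (for nonzero pairs). -/
lemma maxDeg_symSq {a₁ b₁ a₂ b₂ : k[X]} (h₁ : ![a₁, b₁] ≠ 0) (h₂ : ![a₂, b₂] ≠ 0) :
    maxDeg (symSq a₁ b₁ a₂ b₂) = maxDeg ![a₁, b₁] + maxDeg ![a₂, b₂] := by
  set d₁ := maxDeg ![a₁, b₁] with hd₁
  set d₂ := maxDeg ![a₂, b₂] with hd₂
  have ha₁ : a₁.natDegree ≤ d₁ := natDegree_pair_le.1
  have hb₁ : b₁.natDegree ≤ d₁ := natDegree_pair_le.2
  have ha₂ : a₂.natDegree ≤ d₂ := natDegree_pair_le.1
  have hb₂ : b₂.natDegree ≤ d₂ := natDegree_pair_le.2
  apply le_antisymm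
  · rw [maxDeg_le_iff]
    intro i
    fin_cases i
    · exact (natDegree_mul_le).trans (add_le_add ha₁ ha₂)
    · refine (natDegree_add_le _ _).trans (max_le ?_ ?_)
      · exact (natDegree_mul_le).trans (add_le_add ha₁ hb₂)
      · exact (natDegree_mul_le).trans ((add_le_add ha₂ hb₁).trans (by omega))
    · exact (natDegree_mul_le).trans (add_le_add hb₁ hb₂)
  · -- leading coefficient vectors
    set α₁ := a₁.coeff d₁
    set β₁ := b₁.coeff d₁
    set α₂ := a₂.coeff d₂
    set β₂ := b₂.coeff d₂
    have hlead₁ : α₁ ≠ 0 ∨ β₁ ≠ 0 := by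
      obtain ⟨i, hi⟩ := exists_natDegree_eq_maxDeg ![a₁, b₁]
      have hne : ∃ j, ![a₁, b₁] j ≠ 0 := by
        by_contra hcon
        push Not at hcon
        exact h₁ (funext hcon)
      fin_cases i
      · by_cases ha : a₁ = 0
        · -- then d₁ = 0 and b₁ ≠ 0
          have hd0 : d₁ = 0 := by
            have : (![a₁, b₁] 0).natDegree = d₁ := hi
            simpa [ha] using this.symm
          right
          have hb : b₁ ≠ 0 := by
            obtain ⟨j, hj⟩ := hne
            fin_cases j
            · exact absurd ha hj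
            · exact hj
          have hbd : b₁.natDegree = 0 := by omega
          show b₁.coeff d₁ ≠ 0
          rw [hd0, ← hbd]
          exact Polynomial.leadingCoeff_ne_zero.mpr hb
        · left
          have : a₁.natDegree = d₁ := hi
          show a₁.coeff d₁ ≠ 0
          rw [← this]
          exact Polynomial.leadingCoeff_ne_zero.mpr ha
      · by_cases hb : b₁ = 0
        · have hd0 : d₁ = 0 := by
            have : (![a₁, b₁] 1).natDegree = d₁ := hi
            simpa [hb] using this.symm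
          left
          have ha : a₁ ≠ 0 := by
            obtain ⟨j, hj⟩ := hne
            fin_cases j
            · exact hj
            · exact absurd hb hj
          have had : a₁.natDegree = 0 := by omega
          show a₁.coeff d₁ ≠ 0
          rw [hd0, ← had]
          exact Polynomial.leadingCoeff_ne_zero.mpr ha
        · right
          have : b₁.natDegree = d₁ := hi
          show b₁.coeff d₁ ≠ 0
          rw [← this]
          exact Polynomial.leadingCoeff_ne_zero.mpr hb
    have hlead₂ : α₂ ≠ 0 ∨ β₂ ≠ 0 := by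
      obtain ⟨i, hi⟩ := exists_natDegree_eq_maxDeg ![a₂, b₂]
      have hne : ∃ j, ![a₂, b₂] j ≠ 0 := by
        by_contra hcon
        push Not at hcon
        exact h₂ (funext hcon)
      fin_cases i
      · by_cases ha : a₂ = 0
        · have hd0 : d₂ = 0 := by
            have : (![a₂, b₂] 0).natDegree = d₂ := hi
            simpa [ha] using this.symm
          right
          have hb : b₂ ≠ 0 := by
            obtain ⟨j, hj⟩ := hne
            fin_cases j
            · exact absurd ha hj
            · exact hj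
          have hbd : b₂.natDegree = 0 := by omega
          show b₂.coeff d₂ ≠ 0
          rw [hd0, ← hbd]
          exact Polynomial.leadingCoeff_ne_zero.mpr hb
        · left
          have : a₂.natDegree = d₂ := hi
          show a₂.coeff d₂ ≠ 0
          rw [← this]
          exact Polynomial.leadingCoeff_ne_zero.mpr ha
      · by_cases hb : b₂ = 0
        · have hd0 : d₂ = 0 := by
            have : (![a₂, b₂] 1).natDegree = d₂ := hi
            simpa [hb] using this.symm
          left
          have ha : a₂ ≠ 0 := by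
            obtain ⟨j, hj⟩ := hne
            fin_cases j
            · exact hj
            · exact absurd hb hj
          have had : a₂.natDegree = 0 := by omega
          show a₂.coeff d₂ ≠ 0
          rw [hd0, ← had]
          exact Polynomial.leadingCoeff_ne_zero.mpr ha
        · right
          have : b₂.natDegree = d₂ := hi
          show b₂.coeff d₂ ≠ 0
          rw [← this]
          exact Polynomial.leadingCoeff_ne_zero.mpr hb
    -- coefficients of degree `d₁ + d₂`
    have c0 : (a₁ * a₂).coeff (d₁ + d₂) = α₁ * α₂ :=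
      Polynomial.coeff_mul_add_eq_of_natDegree_le ha₁ ha₂
    have c1 : (a₁ * b₂ + a₂ * b₁).coeff (d₁ + d₂) = α₁ * β₂ + α₂ * β₁ := by
      rw [Polynomial.coeff_add, Polynomial.coeff_mul_add_eq_of_natDegree_le ha₁ hb₂,
        add_comm d₁ d₂, Polynomial.coeff_mul_add_eq_of_natDegree_le ha₂ hb₁]
    have c2 : (b₁ * b₂).coeff (d₁ + d₂) = β₁ * β₂ :=
      Polynomial.coeff_mul_add_eq_of_natDegree_le hb₁ hb₂
    -- one of them is nonzero
    have hex : α₁ * α₂ ≠ 0 ∨ α₁ * β₂ + α₂ * β₁ ≠ 0 ∨ β₁ * β₂ ≠ 0 := by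
      by_contra hcon
      push Not at hcon
      obtain ⟨e0, e1, e2⟩ := hcon
      rcases mul_eq_zero.mp e0 with h | h
      · have hβ₁ : β₁ ≠ 0 := hlead₁.resolve_left (not_not.mpr h)
        have hβ₂ : β₂ = 0 := (mul_eq_zero.mp e2).resolve_left hβ₁
        have hα₂ : α₂ ≠ 0 := hlead₂.resolve_right (not_not.mpr hβ₂)
        rw [h, zero_mul, zero_add] at e1
        exact (mul_ne_zero hα₂ hβ₁) e1
      · have hβ₂ : β₂ ≠ 0 := hlead₂.resolve_left (not_not.mpr h)
        have hβ₁ : β₁ = 0 := (mul_eq_zero.mp e2).resolve_right hβ₂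
        have hα₁ : α₁ ≠ 0 := hlead₁.resolve_right (not_not.mpr hβ₁)
        rw [h, zero_mul, add_zero] at e1
        exact (mul_ne_zero hα₁ hβ₂) e1
    rcases hex with h | h | h
    · refine le_trans ?_ (natDegree_le_maxDeg (symSq a₁ b₁ a₂ b₂) 0)
      exact Polynomial.le_natDegree_of_ne_zero (by simpa [symSq, c0] using h)
    · refine le_trans ?_ (natDegree_le_maxDeg (symSq a₁ b₁ a₂ b₂) 1)
      exact Polynomial.le_natDegree_of_ne_zero (by simpa [symSq, c1] using h)
    · refine le_trans ?_ (natDegree_le_maxDeg (symSq a₁ b₁ a₂ b₂) 2)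
      exact Polynomial.le_natDegree_of_ne_zero (by simpa [symSq, c2] using h)

/-- Degree bound for the evaluation of a homogeneous polynomial with constant coefficients at a
vector of polynomials. -/
lemma natDegree_aeval_le {σ : Type*} [Fintype σ] {p : MvPolynomial σ k} {m : ℕ}
    (hp : p.IsHomogeneous m) (w : σ → k[X]) (d : ℕ) (hw : ∀ i, (w i).natDegree ≤ d) :
    (MvPolynomial.aeval w p).natDegree ≤ m * d := by
  rw [MvPolynomial.aeval_def, MvPolynomial.eval₂_eq']
  refine Polynomial.natDegree_sum_le_of_forall_le _ _ ?_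
  intro e he
  have hcoeff : MvPolynomial.coeff e p ≠ 0 := MvPolynomial.mem_support_iff.mp he
  have hdeg : e.degree = m := by
    rw [Finsupp.degree_eq_weight_one]
    exact hp hcoeff
  calc (algebraMap k k[X] (MvPolynomial.coeff e p) * ∏ i, w i ^ e i).natDegree
      ≤ (∏ i, w i ^ e i).natDegree := by
        rw [Polynomial.algebraMap_eq]
        exact Polynomial.natDegree_C_mul_le _ _
    _ ≤ ∑ i, (w i ^ e i).natDegree := Polynomial.natDegree_prod_le _ _
    _ ≤ ∑ i, e i * d := by
        refine Finset.sum_le_sum fun i _ => ?_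
        exact (Polynomial.natDegree_pow_le).trans (Nat.mul_le_mul_left _ (hw i))
    _ = m * d := by
        rw [← Finset.sum_mul, ← hdeg]
        congr 1
        rw [Finsupp.degree_eq_sum]

end Fermat.Agent.S52.H733
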