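import Fermat.Agent.S52.H733.AddSub
import Fermat.Agent.S52.H733.AddSubPoly

/-!
# The exact parallelogram law for the degree of the x-coordinate

Let `W` be an elliptic curve over a field `k`, `L` a field with an injective `k`-algebra map
`φ : k[X] → L` (e.g. `L` a function field containing `k(X)`).  For a point `P ∈ W(L)` whose
x-coordinate lies in the image of `k(X)`, say `x(P) = φ a / φ b` with `(a, b)` primitive, put
`h(P) = max (deg a) (deg b)` (`HasXDeg W φ P n` says that `h(P) = n`).  Then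

`h (P + Q) + h (P - Q) = 2 * h P + 2 * h Q`

whenever all four points have x-coordinate in the image of `k(X)` (`parallelogram`).
This is the *exact* form of the parallelogram law for function-field heights used in Manin's
elementary proof of the Hasse bound.
-/

set_option autoImplicit false

namespace Fermat.Agent.S52.H733

open Polynomial WeierstrassCurve WeierstrassCurve.Affine

section homog

variable {F : Type*} [Field F]

/-- `addSubMap` is homogeneous of degree `2`. -/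
lemma asEval_smul (W : WeierstrassCurve F) (c : F) (v : Fin 3 → F) :
    asEval W (c • v) = c ^ 2 • asEval W v := by
  funext i
  fin_cases i <;> simp [asEval, addSubMap] <;> ring

end homog

variable {k : Type*} [Field k] {L : Type*} [Field L] [Algebra k L]
variable (W : WeierstrassCurve k) (φ : k[X] →ₐ[k] L)

/-- Compatibility of `asPoly` (over `k[X]`) with `asEval` (over `L`). -/
lemma map_asPoly (w : Fin 3 → k[X]) :
    (fun i => φ (asPoly W w i)) = asEval (W.baseChange L) (fun i => φ (w i)) := by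
  funext i
  show φ (MvPolynomial.aeval w (addSubMap W i)) =
    (addSubMap (W.map (algebraMap k L)) i).eval _
  rw [map_addSubMap, MvPolynomial.eval_map, MvPolynomial.comp_aeval_apply,
    MvPolynomial.aeval_def]

variable {φ} in
/-- Proportionality in `L` descends to cross-proportionality in `k[X]`. -/
lemma cross_of_map_eq_smul {n : ℕ} (hφ : Function.Injective φ) {p q : Fin n → k[X]} {c : L}
    (h : (fun i => φ (p i)) = c • fun i => φ (q i)) (i j : Fin n) :
    p i * q j = p j * q i := by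
  apply hφ
  have hi := congrFun h i
  have hj := congrFun h j
  simp only [Pi.smul_apply, smul_eq_mul] at hi hj
  rw [map_mul, map_mul, hi, hj]
  ring

/-- `HasXDeg W φ P n`: the x-coordinate of `P` is `φ a / φ b` for a primitive pair `(a, b)` of
polynomials with `max (deg a) (deg b) = n` (for `P = 0`: `(a, b) = (1, 0)` up to units, `n = 0`). -/
def HasXDeg (P : (W⁄L).Point) (n : ℕ) : Prop :=
  ∃ a b : k[X], IsPrim ![a, b] ∧ P.xRep 0 * φ b = P.xRep 1 * φ a ∧ maxDeg ![a, b] = n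

/-- The x-coordinate of `P` lies in the image of `k(X)`. -/
def XRat (P : (W⁄L).Point) : Prop := ∃ n, HasXDeg W φ P n

variable {W φ}

lemma pair_ne_zero_of_isPrim {a b : k[X]} (hab : IsPrim ![a, b]) : a ≠ 0 ∨ b ≠ 0 := by
  by_contra hcon
  push Not at hcon
  apply hab.ne_zero
  funext i
  fin_cases i
  · exact hcon.1
  · exact hcon.2

lemma exists_smul_xRep (hφ : Function.Injective φ) {P : (W⁄L).Point} {a b : k[X]}
    (hab : IsPrim ![a, b]) (h : P.xRep 0 * φ b = P.xRep 1 * φ a) :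
    ∃ c : L, c ≠ 0 ∧ ![φ a, φ b] = c • P.xRep := by
  have hφ0 : ∀ p : k[X], φ p = 0 → p = 0 := fun p hp => hφ (by rw [hp, map_zero])
  rcases P with _ | ⟨x, y, hxy⟩
  · have hb : φ b = 0 := by
      have : (1 : L) * φ b = 0 * φ a := h
      simpa using this
    refine ⟨φ a, ?_, ?_⟩
    · intro ha
      rcases pair_ne_zero_of_isPrim hab with h' | h'
      · exact h' (hφ0 a ha)
      · exact h' (hφ0 b hb)
    · show ![φ a, φ b] = φ a • ![(1 : L), 0]
      rw [hb]
      funext i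
      fin_cases i <;> simp
  · have ha : x * φ b = φ a := by
      have : x * φ b = 1 * φ a := h
      simpa using this
    refine ⟨φ b, ?_, ?_⟩
    · intro hb
      have ha0 : φ a = 0 := by rw [← ha, hb, mul_zero]
      rcases pair_ne_zero_of_isPrim hab with h' | h'
      · exact h' (hφ0 a ha0)
      · exact h' (hφ0 b hb)
    · show ![φ a, φ b] = φ b • ![x, (1 : L)]
      rw [← ha]
      funext i
      fin_cases i <;> simp [mul_comm]

lemma map_symSq {P Q : (W⁄L).Point} {a₁ b₁ a₂ b₂ : k[X]} {c₁ c₂ : L}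
    (h₁ : ![φ a₁, φ b₁] = c₁ • P.xRep) (h₂ : ![φ a₂, φ b₂] = c₂ • Q.xRep) :
    (fun i => φ (symSq a₁ b₁ a₂ b₂ i)) = (c₁ * c₂) • P.sym2x Q := by
  have e1 : φ a₁ = c₁ * P.xRep 0 := by simpa using congrFun h₁ 0
  have e2 : φ b₁ = c₁ * P.xRep 1 := by simpa using congrFun h₁ 1
  have e3 : φ a₂ = c₂ * Q.xRep 0 := by simpa using congrFun h₂ 0
  have e4 : φ b₂ = c₂ * Q.xRep 1 := by simpa using congrFun h₂ 1
  funext i
  fin_cases i
  · simp only [symSq, Point.sym2x, Fin.zero_eta, Matrix.cons_val_zero, map_mul, Pi.smul_apply,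
      smul_eq_mul, e1, e3]
    ring
  · simp only [symSq, Point.sym2x, Fin.mk_one, Matrix.cons_val_one, Matrix.cons_val_zero,
      map_mul, map_add, Pi.smul_apply, smul_eq_mul, e1, e2, e3, e4]
    ring
  · simp only [symSq, Point.sym2x, Fin.reduceFinMk, Matrix.cons_val, map_mul, Pi.smul_apply,
      smul_eq_mul, e2, e4]
    ring

/-- The degree of the x-coordinate is well defined. -/
theorem HasXDeg.unique (hφ : Function.Injective φ) {P : (W⁄L).Point} {n m : ℕ}
    (hn : HasXDeg W φ P n) (hm : HasXDeg W φ P m) : n = m := by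
  obtain ⟨a, b, hab, hx, rfl⟩ := hn
  obtain ⟨a', b', hab', hx', rfl⟩ := hm
  obtain ⟨c, hc, hcv⟩ := exists_smul_xRep hφ hab hx
  obtain ⟨c', hc', hcv'⟩ := exists_smul_xRep hφ hab' hx'
  have hprop : (fun i => φ (![a', b'] i)) = (c' * c⁻¹) • fun i => φ (![a, b] i) := by
    have h1 : (fun i => φ (![a, b] i)) = c • P.xRep := by
      rw [← hcv]; funext i; fin_cases i <;> rfl
    have h2 : (fun i => φ (![a', b'] i)) = c' • P.xRep := by
      rw [← hcv']; funext i; fin_cases i <;> rfl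
    rw [h1, h2, smul_smul, mul_assoc, inv_mul_cancel₀ hc, mul_one]
  have hcross := cross_of_map_eq_smul hφ hprop
  exact maxDeg_eq_of_prop hab' hab hcross

lemma hasXDeg_zero : HasXDeg W φ (0 : (W⁄L).Point) 0 := by
  refine ⟨1, 0, isPrim_pair_iff.mpr ⟨1, 0, by ring⟩, ?_, ?_⟩
  · simp
  · simp [maxDeg]

lemma HasXDeg.neg {P : (W⁄L).Point} {n : ℕ} (h : HasXDeg W φ P n) : HasXDeg W φ (-P) n := by
  obtain ⟨a, b, hab, hx, hn⟩ := h
  exact ⟨a, b, hab, by rwa [Point.xRep_neg], hn⟩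

lemma hasXDeg_some_iff {x y : L} {hxy : (W⁄L).Nonsingular x y} {n : ℕ} :
    HasXDeg W φ (Point.some x y hxy) n ↔
      ∃ a b : k[X], IsPrim ![a, b] ∧ x * φ b = φ a ∧ maxDeg ![a, b] = n := by
  constructor
  · rintro ⟨a, b, hab, hx, hn⟩
    refine ⟨a, b, hab, ?_, hn⟩
    have : x * φ b = 1 * φ a := hx
    simpa using this
  · rintro ⟨a, b, hab, hx, hn⟩
    refine ⟨a, b, hab, ?_, hn⟩
    show x * φ b = 1 * φ a
    simpa using hx

/-! ### The height as a function -/

variable (W φ) in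
/-- The degree of the x-coordinate of `P` (junk value `0` if the x-coordinate does not lie in
the image of `k(X)`). -/
noncomputable def xDeg (P : (W⁄L).Point) : ℕ := sInf {n | HasXDeg W φ P n}

lemma HasXDeg.xDeg_eq (hφ : Function.Injective φ) {P : (W⁄L).Point} {n : ℕ}
    (h : HasXDeg W φ P n) : xDeg W φ P = n := by
  have hmem : xDeg W φ P ∈ {n | HasXDeg W φ P n} := Nat.sInf_mem ⟨n, h⟩
  exact HasXDeg.unique hφ hmem h

lemma XRat.hasXDeg {P : (W⁄L).Point} (h : XRat W φ P) : HasXDeg W φ P (xDeg W φ P) :=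
  Nat.sInf_mem h

lemma xRat_zero : XRat W φ (0 : (W⁄L).Point) := ⟨0, hasXDeg_zero⟩

lemma xDeg_zero (hφ : Function.Injective φ) : xDeg W φ (0 : (W⁄L).Point) = 0 :=
  hasXDeg_zero.xDeg_eq hφ

lemma XRat.neg {P : (W⁄L).Point} (h : XRat W φ P) : XRat W φ (-P) :=
  ⟨_, h.hasXDeg.neg⟩

lemma xDeg_neg (hφ : Function.Injective φ) {P : (W⁄L).Point} (h : XRat W φ P) :
    xDeg W φ (-P) = xDeg W φ P :=
  h.hasXDeg.neg.xDeg_eq hφ

variable [DecidableEq L]

/-- **Exact parallelogram law** for the degree of the x-coordinate. -/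
theorem parallelogram [W.IsElliptic] (hφ : Function.Injective φ) {P Q : (W⁄L).Point}
    {n₁ n₂ n₃ n₄ : ℕ} (hP : HasXDeg W φ P n₁) (hQ : HasXDeg W φ Q n₂)
    (hS : HasXDeg W φ (P + Q) n₃) (hD : HasXDeg W φ (P - Q) n₄) :
    n₃ + n₄ = 2 * n₁ + 2 * n₂ := by
  obtain ⟨a₁, b₁, hp₁, hx₁, rfl⟩ := hP
  obtain ⟨a₂, b₂, hp₂, hx₂, rfl⟩ := hQ
  obtain ⟨a₃, b₃, hp₃, hx₃, rfl⟩ := hS
  obtain ⟨a₄, b₄, hp₄, hx₄, rfl⟩ := hD
  obtain ⟨c₁, hc₁, hv₁⟩ := exists_smul_xRep hφ hp₁ hx₁
  obtain ⟨c₂, hc₂, hv₂⟩ := exists_smul_xRep hφ hp₂ hx₂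
  obtain ⟨c₃, hc₃, hv₃⟩ := exists_smul_xRep hφ hp₃ hx₃
  obtain ⟨c₄, hc₄, hv₄⟩ := exists_smul_xRep hφ hp₄ hx₄
  have hs := map_symSq hv₁ hv₂
  have hs' := map_symSq hv₃ hv₄
  have : (W⁄L).IsElliptic := inferInstanceAs (W.map (algebraMap k L)).IsElliptic
  obtain ⟨c, hc, hcv⟩ := asEval_sym2x (W := W⁄L) P Q
  have h34 : c₃ * c₄ ≠ 0 := mul_ne_zero hc₃ hc₄
  have ht : (fun i => φ (asPoly W (symSq a₁ b₁ a₂ b₂) i)) =
      ((c₁ * c₂) ^ 2 * c * (c₃ * c₄)⁻¹) • fun i => φ (symSq a₃ b₃ a₄ b₄ i) := by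
    rw [map_asPoly, hs, asEval_smul, hs']
    show (c₁ * c₂) ^ 2 • asEval (W⁄L) (P.sym2x Q) = _
    rw [hcv, smul_smul, smul_smul, mul_assoc ((c₁ * c₂) ^ 2 * c), inv_mul_cancel₀ h34, mul_one]
  have hcross := cross_of_map_eq_smul hφ ht
  have hdeg := maxDeg_eq_of_prop (isPrim_asPoly W (isPrim_symSq hp₁ hp₂)) (isPrim_symSq hp₃ hp₄)
    hcross
  rw [maxDeg_asPoly, maxDeg_symSq hp₁.ne_zero hp₂.ne_zero,
    maxDeg_symSq hp₃.ne_zero hp₄.ne_zero] at hdeg
  omega

/-- **Exact parallelogram law**, function form. -/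
theorem xDeg_parallelogram [W.IsElliptic] (hφ : Function.Injective φ) {P Q : (W⁄L).Point}
    (hP : XRat W φ P) (hQ : XRat W φ Q) (hS : XRat W φ (P + Q)) (hD : XRat W φ (P - Q)) :
    xDeg W φ (P + Q) + xDeg W φ (P - Q) = 2 * xDeg W φ P + 2 * xDeg W φ Q :=
  parallelogram hφ hP.hasXDeg hQ.hasXDeg hS.hasXDeg hD.hasXDeg

/-- On a subgroup all of whose points have x-coordinate in `k(X)`, the degree of the
x-coordinate satisfies the parallelogram law. -/
theorem xDeg_parallelogram_subgroup [W.IsElliptic] (hφ : Function.Injective φ)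
    (M : AddSubgroup (W⁄L).Point) (hM : ∀ P ∈ M, XRat W φ P) (P Q : M) :
    xDeg W φ ((P + Q : M) : (W⁄L).Point) + xDeg W φ ((P - Q : M) : (W⁄L).Point) =
      2 * xDeg W φ (P : (W⁄L).Point) + 2 * xDeg W φ (Q : (W⁄L).Point) := by
  have hS := hM _ (P + Q).2
  have hD := hM _ (P - Q).2
  rw [AddSubgroup.coe_add] at hS ⊢
  rw [AddSubgroup.coe_sub] at hD ⊢
  exact xDeg_parallelogram hφ (hM _ P.2) (hM _ Q.2) hS hD

end Fermat.Agent.S52.H733
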